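import Fermat.Agent.S55.H572.DimShift

/-!
# Corestriction in all degrees, by dimension shifting

For a subgroup `H ≤ G` of finite index we construct `cor n A : Hⁿ(H, A) ⟶ Hⁿ(G, A)` for all
`n : ℕ`, natural in `A : Rep k G`, with `res ≫ cor = [G : H]`.

Degree `0` is the relative norm on invariants; the step `n → n + 1` descends
`cor n (up A) ≫ δ_G` along the epimorphism `δ_H : Hⁿ(H, up A) → Hⁿ⁺¹(H, A)`.
-/

set_option autoImplicit false

open CategoryTheory groupCohomology Rep Limits

universe u

namespace Fermat.Agent.S55.H572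

noncomputable section

variable {k G : Type u} [CommRing k] [Group G]

/-! ### Restriction commutes with connecting homomorphisms -/

/-- Restriction to `H` as a morphism of short complexes of cochain complexes. -/
def resCochainsSC (S : ShortComplex (Rep.{u} k G)) (H : Subgroup G) :
    S.map (cochainsFunctor k G) ⟶ (S.map (resFunctor H.subtype)).map (cochainsFunctor k H) where
  τ₁ := cochainsMap H.subtype (𝟙 (res H.subtype S.X₁))
  τ₂ := cochainsMap H.subtype (𝟙 (res H.subtype S.X₂))
  τ₃ := cochainsMap H.subtype (𝟙 (res H.subtype S.X₃))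
  comm₁₂ := rfl
  comm₂₃ := rfl

/-- The restriction map `Hⁿ(G, A) ⟶ Hⁿ(H, A)`. -/
abbrev resH (H : Subgroup G) (A : Rep.{u} k G) (n : ℕ) :
    groupCohomology A n ⟶ groupCohomology (res H.subtype A) n :=
  groupCohomology.map H.subtype (𝟙 (res H.subtype A)) n

/-- Restriction commutes with the connecting homomorphisms. -/
theorem δ_resH {S : ShortComplex (Rep.{u} k G)} (hS : S.ShortExact) (H : Subgroup G)
    (i j : ℕ) (hij : i + 1 = j) :
    groupCohomology.δ hS i j hij ≫ resH H S.X₁ j =
      resH H S.X₃ i ≫ groupCohomology.δ ((Rep.shortExact_res H.subtype).2 hS) i j hij :=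
  HomologicalComplex.HomologySequence.δ_naturality (resCochainsSC S H)
    (map_cochainsFunctor_shortExact hS)
    (map_cochainsFunctor_shortExact ((Rep.shortExact_res H.subtype).2 hS)) i j hij

set_option backward.isDefEq.respectTransparency false in
/-- Restriction is natural in the coefficients. -/
theorem resH_naturality (H : Subgroup G) {A B : Rep.{u} k G} (f : A ⟶ B) (n : ℕ) :
    groupCohomology.map (MonoidHom.id G) f n ≫ resH H B n =
      resH H A n ≫ groupCohomology.map (MonoidHom.id H) ((resFunctor H.subtype).map f) n :=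
  (resNatTrans (k := k) H.subtype n).naturality f

/-! ### `coind₁` over `G` itself -/

theorem isZero_groupCohomology_coind₁ (A : Rep.{u} k G) (n : ℕ) :
    IsZero (groupCohomology (coind₁ A) (n + 1)) :=
  IsZero.of_iso (isZero_groupCohomology_succ_of_subsingleton _ n)
    (groupCohomology.coindIso (res (⊥ : Subgroup G).subtype A) (n + 1))

/-- `δ_G : Hⁿ(G, up A) → Hⁿ⁺¹(G, A)` is an epimorphism for every `n`. -/
theorem epi_δ_upG (A : Rep.{u} k G) (n : ℕ) :
    Epi (groupCohomology.δ (upSC_shortExact A) n (n + 1) rfl) :=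
  groupCohomology.epi_δ_of_isZero (upSC_shortExact A) n (isZero_groupCohomology_coind₁ A n)

/-- `δ_H : Hⁿ(H, up A) → Hⁿ⁺¹(H, A)` is an epimorphism for every `n`. -/
theorem epi_δ_upH (H : Subgroup G) (A : Rep.{u} k G) (n : ℕ) :
    Epi (groupCohomology.δ (upSCRes_shortExact H A) n (n + 1) rfl) :=
  groupCohomology.epi_δ_of_isZero (upSCRes_shortExact H A) n
    (isZero_groupCohomology_res_coind₁ H A n)

/-! ### Degree `0`: the relative norm -/

section deg0

variable (H : Subgroup G) [Fintype (G ⧸ H)]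

lemma ρ_eq_of_mem_invariants (A : Rep.{u} k G) {x : A.V}
    (hx : x ∈ (res H.subtype A).ρ.invariants) {a b : G} (hab : a⁻¹ * b ∈ H) :
    A.ρ a x = A.ρ b x := by
  have h1 : A.ρ (a⁻¹ * b) x = x := hx ⟨a⁻¹ * b, hab⟩
  calc A.ρ a x = A.ρ a (A.ρ (a⁻¹ * b) x) := by rw [h1]
    _ = A.ρ (a * (a⁻¹ * b)) x := by rw [map_mul A.ρ a (a⁻¹ * b)]; rfl
    _ = A.ρ b x := by rw [mul_inv_cancel_left]

lemma ρ_out_eq (A : Rep.{u} k G) {x : A.V}
    (hx : x ∈ (res H.subtype A).ρ.invariants) (g : G) :
    A.ρ (QuotientGroup.mk g : G ⧸ H).out x = A.ρ g x :=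
  ρ_eq_of_mem_invariants H A hx
    (QuotientGroup.leftRel_apply.mp (Quotient.exact' (QuotientGroup.out_eq' _)))

/-- The relative norm `A^H → A^G`, `x ↦ ∑_{q ∈ G/H} q x`. -/
def corInv (A : Rep.{u} k G) : (res H.subtype A).ρ.invariants →ₗ[k] A.ρ.invariants where
  toFun x := ⟨∑ q : G ⧸ H, A.ρ q.out x.1, fun g => by
    rw [map_sum]
    have h1 : ∀ q : G ⧸ H, A.ρ g (A.ρ q.out x.1) = A.ρ (g • q).out x.1 := by
      intro q
      have h2 : (g • q : G ⧸ H) = QuotientGroup.mk (g * q.out) := by
        conv_lhs => rw [← QuotientGroup.out_eq' q]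
        rfl
      rw [h2, ρ_out_eq H A x.2, map_mul]
      rfl
    rw [Finset.sum_congr rfl (fun q _ => h1 q)]
    exact Fintype.sum_equiv (MulAction.toPerm g) _ _ (fun q => rfl)⟩
  map_add' x y := by
    apply Subtype.ext
    simp [Finset.sum_add_distrib]
  map_smul' r x := by
    apply Subtype.ext
    simp [Finset.smul_sum]

lemma corInv_coe (A : Rep.{u} k G) (x : (res H.subtype A).ρ.invariants) :
    ((corInv H A x : A.ρ.invariants) : A.V) = ∑ q : G ⧸ H, A.ρ q.out x.1 := rfl

/-- The inclusion `A^G → A^H`. -/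
def inclInv (A : Rep.{u} k G) : A.ρ.invariants →ₗ[k] (res H.subtype A).ρ.invariants where
  toFun x := ⟨x.1, fun h => x.2 h.1⟩
  map_add' _ _ := rfl
  map_smul' _ _ := rfl

lemma corInv_inclInv (A : Rep.{u} k G) (x : A.ρ.invariants) :
    corInv H A (inclInv H A x) = H.index • x := by
  apply Subtype.ext
  rw [corInv_coe]
  have h1 : ∀ q : G ⧸ H, A.ρ q.out (inclInv H A x).1 = x.1 := fun q => x.2 q.out
  rw [Finset.sum_congr rfl (fun q _ => h1 q), Finset.sum_const, Finset.card_univ,
    Subgroup.index_eq_card, Nat.card_eq_fintype_card]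
  simp

/-- Corestriction in degree `0`. -/
def cor0 (A : Rep.{u} k G) :
    groupCohomology (res H.subtype A) 0 ⟶ groupCohomology A 0 :=
  (H0Iso (res H.subtype A)).hom ≫ ModuleCat.ofHom (corInv H A) ≫ (H0Iso A).inv

set_option backward.isDefEq.respectTransparency false in
lemma resH_H0Iso (A : Rep.{u} k G) :
    resH H A 0 ≫ (H0Iso (res H.subtype A)).hom =
      (H0Iso A).hom ≫ ModuleCat.ofHom (inclInv H A) := by
  have hmono : Mono (shortComplexH0 (res H.subtype A)).f := by
    rw [ModuleCat.mono_iff_injective]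
    exact Subtype.val_injective
  apply (cancel_mono (shortComplexH0 (res H.subtype A)).f).mp
  have h := map_H0Iso_hom_f (A := A) (B := res H.subtype A) H.subtype (𝟙 (res H.subtype A))
  rw [Category.assoc]
  exact h

lemma inclInv_corInv (A : Rep.{u} k G) :
    ModuleCat.ofHom (inclInv H A) ≫ ModuleCat.ofHom (corInv H A) =
      H.index • 𝟙 (ModuleCat.of k A.ρ.invariants) := by
  apply ModuleCat.hom_ext
  apply LinearMap.ext
  intro x
  exact corInv_inclInv H A x

theorem resH_cor0 (A : Rep.{u} k G) :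
    resH H A 0 ≫ cor0 H A = H.index • 𝟙 (groupCohomology A 0) := by
  rw [cor0, ← Category.assoc, resH_H0Iso, Category.assoc,
    ← Category.assoc (ModuleCat.ofHom (inclInv H A)), inclInv_corInv,
    Preadditive.nsmul_comp, Preadditive.comp_nsmul, Category.id_comp, Iso.hom_inv_id]

lemma invariants_map_corInv {A B : Rep.{u} k G} (f : A ⟶ B) :
    (invariantsFunctor k H).map ((resFunctor H.subtype).map f) ≫ ModuleCat.ofHom (corInv H B) =
      ModuleCat.ofHom (corInv H A) ≫ (invariantsFunctor k G).map f := by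
  apply ModuleCat.hom_ext
  apply LinearMap.ext
  intro x
  apply Subtype.ext
  change ∑ q : G ⧸ H, B.ρ q.out (f.hom x.1) = f.hom (∑ q : G ⧸ H, A.ρ q.out x.1)
  rw [map_sum]
  exact Finset.sum_congr rfl (fun q _ => (Rep.hom_comm_apply f q.out x.1).symm)

set_option backward.isDefEq.respectTransparency false in
theorem cor0_naturality {A B : Rep.{u} k G} (f : A ⟶ B) :
    groupCohomology.map (MonoidHom.id H) ((resFunctor H.subtype).map f) 0 ≫ cor0 H B =
      cor0 H A ≫ groupCohomology.map (MonoidHom.id G) f 0 := by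
  have h1 : (H0Iso A).inv ≫ groupCohomology.map (MonoidHom.id G) f 0 =
      (invariantsFunctor k G).map f ≫ (H0Iso B).inv := by
    rw [Iso.inv_comp_eq, ← Category.assoc, Iso.eq_comp_inv]
    exact map_id_comp_H0Iso_hom f
  have h2 : groupCohomology.map (MonoidHom.id H) ((resFunctor H.subtype).map f) 0 ≫
      (H0Iso (res H.subtype B)).hom =
      (H0Iso (res H.subtype A)).hom ≫
        (invariantsFunctor k H).map ((resFunctor H.subtype).map f) :=
    map_id_comp_H0Iso_hom ((resFunctor H.subtype).map f)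
  calc groupCohomology.map (MonoidHom.id H) ((resFunctor H.subtype).map f) 0 ≫ cor0 H B
      = (groupCohomology.map (MonoidHom.id H) ((resFunctor H.subtype).map f) 0 ≫
          (H0Iso (res H.subtype B)).hom) ≫ ModuleCat.ofHom (corInv H B) ≫ (H0Iso B).inv := by
        rw [cor0, Category.assoc]
    _ = (H0Iso (res H.subtype A)).hom ≫
          ((invariantsFunctor k H).map ((resFunctor H.subtype).map f) ≫
            ModuleCat.ofHom (corInv H B)) ≫ (H0Iso B).inv := by
        rw [h2, Category.assoc, Category.assoc]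
    _ = (H0Iso (res H.subtype A)).hom ≫ ModuleCat.ofHom (corInv H A) ≫
          ((invariantsFunctor k G).map f ≫ (H0Iso B).inv) := by
        rw [invariants_map_corInv, Category.assoc]
    _ = cor0 H A ≫ groupCohomology.map (MonoidHom.id G) f 0 := by
        rw [← h1, cor0, Category.assoc, Category.assoc]

end deg0

/-! ### The induction step -/

section step

/-- `δ_G : Hⁿ(G, up A) ⟶ Hⁿ⁺¹(G, A)`. -/
def δG (A : Rep.{u} k G) (n : ℕ) : groupCohomology (up A) n ⟶ groupCohomology A (n + 1) :=
  groupCohomology.δ (upSC_shortExact A) n (n + 1) rfl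

/-- `δ_H : Hⁿ(H, up A) ⟶ Hⁿ⁺¹(H, A)`. -/
def δH (H : Subgroup G) (A : Rep.{u} k G) (n : ℕ) :
    groupCohomology (res H.subtype (up A)) n ⟶ groupCohomology (res H.subtype A) (n + 1) :=
  groupCohomology.δ (upSCRes_shortExact H A) n (n + 1) rfl

/-- `Hⁿ(G, coind₁ A) ⟶ Hⁿ(G, up A)`. -/
def πG (A : Rep.{u} k G) (n : ℕ) : groupCohomology (coind₁ A) n ⟶ groupCohomology (up A) n :=
  groupCohomology.map (MonoidHom.id G) (upπ A) n

/-- `Hⁿ(H, coind₁ A) ⟶ Hⁿ(H, up A)`. -/
def πH (H : Subgroup G) (A : Rep.{u} k G) (n : ℕ) :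
    groupCohomology (res H.subtype (coind₁ A)) n ⟶ groupCohomology (res H.subtype (up A)) n :=
  groupCohomology.map (MonoidHom.id H) ((resFunctor H.subtype).map (upπ A)) n

lemma πH_δH (H : Subgroup G) (A : Rep.{u} k G) (n : ℕ) : πH H A n ≫ δH H A n = 0 :=
  (map_cochainsFunctor_shortExact (upSCRes_shortExact H A)).comp_δ n (n + 1) rfl

lemma πG_δG (A : Rep.{u} k G) (n : ℕ) : πG A n ≫ δG A n = 0 :=
  (map_cochainsFunctor_shortExact (upSC_shortExact A)).comp_δ n (n + 1) rfl

lemma exact_πH_δH (H : Subgroup G) (A : Rep.{u} k G) (n : ℕ) :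
    (ShortComplex.mk (πH H A n) (δH H A n) (πH_δH H A n)).Exact :=
  (map_cochainsFunctor_shortExact (upSCRes_shortExact H A)).homology_exact₃ n (n + 1) rfl

instance epi_δH (H : Subgroup G) (A : Rep.{u} k G) (n : ℕ) : Epi (δH H A n) :=
  epi_δ_upH H A n

instance epi_δG (A : Rep.{u} k G) (n : ℕ) : Epi (δG A n) :=
  epi_δ_upG A n

lemma δG_resH (H : Subgroup G) (A : Rep.{u} k G) (n : ℕ) :
    δG A n ≫ resH H A (n + 1) = resH H (up A) n ≫ δH H A n :=
  δ_resH (upSC_shortExact A) H n (n + 1) rfl

lemma δH_natural (H : Subgroup G) {A B : Rep.{u} k G} (f : A ⟶ B) (n : ℕ) :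
    δH H A n ≫ groupCohomology.map (MonoidHom.id H) ((resFunctor H.subtype).map f) (n + 1) =
      groupCohomology.map (MonoidHom.id H) ((resFunctor H.subtype).map (upMap f)) n ≫
        δH H B n :=
  groupCohomology.δ_naturality (upSCRes_shortExact H A) (upSCRes_shortExact H B)
    ((resFunctor H.subtype).mapShortComplex.map (upSCMap f)) n (n + 1) rfl

lemma δG_natural {A B : Rep.{u} k G} (f : A ⟶ B) (n : ℕ) :
    δG A n ≫ groupCohomology.map (MonoidHom.id G) f (n + 1) =
      groupCohomology.map (MonoidHom.id G) (upMap f) n ≫ δG B n :=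
  groupCohomology.δ_naturality (upSC_shortExact A) (upSC_shortExact B) (upSCMap f) n (n + 1) rfl

variable (H : Subgroup G)

/-- A corestriction in degree `n`: a family `Hⁿ(H, A) ⟶ Hⁿ(G, A)`, natural in `A`, with
`res ≫ cor = [G : H]`. -/
structure CorData (n : ℕ) : Type (u + 1) where
  /-- the corestriction maps -/
  cor : ∀ A : Rep.{u} k G, groupCohomology (res H.subtype A) n ⟶ groupCohomology A n
  res_cor : ∀ A : Rep.{u} k G, resH H A n ≫ cor A = H.index • 𝟙 (groupCohomology A n)
  natural : ∀ {A B : Rep.{u} k G} (f : A ⟶ B),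
    groupCohomology.map (MonoidHom.id H) ((resFunctor H.subtype).map f) n ≫ cor B =
      cor A ≫ groupCohomology.map (MonoidHom.id G) f n

variable {H}

lemma corSucc_aux {n : ℕ} (D : CorData (k := k) H n) (A : Rep.{u} k G) :
    πH H A n ≫ D.cor (up A) ≫ δG A n = 0 := by
  have h1 : πH H A n ≫ D.cor (up A) = D.cor (coind₁ A) ≫ πG A n := D.natural (upπ A)
  rw [← Category.assoc, h1, Category.assoc, πG_δG, comp_zero]

/-- The corestriction in degree `n + 1`, obtained by descending `cor n (up A) ≫ δ_G` along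
the epimorphism `δ_H`. -/
def corSucc {n : ℕ} (D : CorData (k := k) H n) (A : Rep.{u} k G) :
    groupCohomology (res H.subtype A) (n + 1) ⟶ groupCohomology A (n + 1) :=
  (exact_πH_δH H A n).desc (D.cor (up A) ≫ δG A n) (corSucc_aux D A)

lemma δH_corSucc {n : ℕ} (D : CorData (k := k) H n) (A : Rep.{u} k G) :
    δH H A n ≫ corSucc D A = D.cor (up A) ≫ δG A n :=
  (exact_πH_δH H A n).g_desc _ (corSucc_aux D A)

lemma resH_corSucc {n : ℕ} (D : CorData (k := k) H n) (A : Rep.{u} k G) :
    resH H A (n + 1) ≫ corSucc D A = H.index • 𝟙 (groupCohomology A (n + 1)) := by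
  rw [← cancel_epi (δG A n), ← Category.assoc, δG_resH, Category.assoc, δH_corSucc,
    ← Category.assoc, D.res_cor, Preadditive.nsmul_comp, Preadditive.comp_nsmul,
    Category.id_comp, Category.comp_id]

lemma corSucc_natural {n : ℕ} (D : CorData (k := k) H n) {A B : Rep.{u} k G} (f : A ⟶ B) :
    groupCohomology.map (MonoidHom.id H) ((resFunctor H.subtype).map f) (n + 1) ≫ corSucc D B =
      corSucc D A ≫ groupCohomology.map (MonoidHom.id G) f (n + 1) := by
  rw [← cancel_epi (δH H A n), ← Category.assoc, δH_natural H f n, Category.assoc, δH_corSucc,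
    ← Category.assoc, D.natural (upMap f), Category.assoc]
  erw [← δG_natural f n]
  rw [← Category.assoc, ← δH_corSucc, Category.assoc]

/-- The induction step `CorData n → CorData (n + 1)`. -/
def CorData.succ {n : ℕ} (D : CorData (k := k) H n) : CorData (k := k) H (n + 1) where
  cor := corSucc D
  res_cor := resH_corSucc D
  natural := corSucc_natural D

end step

/-! ### Corestriction in all degrees -/

section main

variable (H : Subgroup G) [Fintype (G ⧸ H)]

/-- The corestriction data in degree `0`. -/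
def corData0 : CorData (k := k) H 0 where
  cor := cor0 H
  res_cor := resH_cor0 H
  natural := cor0_naturality H

/-- The corestriction data in all degrees. -/
def corData : ∀ n : ℕ, CorData (k := k) H n
  | 0 => corData0 H
  | n + 1 => (corData n).succ

/-- **Corestriction** `Hⁿ(H, A) ⟶ Hⁿ(G, A)`. -/
def cor (n : ℕ) (A : Rep.{u} k G) :
    groupCohomology (res H.subtype A) n ⟶ groupCohomology A n :=
  (corData H n).cor A

/-- `cor ∘ res = [G : H]`. -/
theorem resH_cor (n : ℕ) (A : Rep.{u} k G) :
    resH H A n ≫ cor H n A = H.index • 𝟙 (groupCohomology A n) :=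
  (corData H n).res_cor A

/-- Corestriction is natural in the coefficients. -/
theorem cor_natural (n : ℕ) {A B : Rep.{u} k G} (f : A ⟶ B) :
    groupCohomology.map (MonoidHom.id H) ((resFunctor H.subtype).map f) n ≫ cor H n B =
      cor H n A ≫ groupCohomology.map (MonoidHom.id G) f n :=
  (corData H n).natural f

/-- Corestriction commutes with the connecting homomorphisms of `upSC`. -/
theorem δH_cor (n : ℕ) (A : Rep.{u} k G) :
    δH H A n ≫ cor H (n + 1) A = cor H n (up A) ≫ δG A n :=
  δH_corSucc (corData H n) A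

/-- If `res_H x = 0` then `[G : H] • x = 0`. -/
theorem index_nsmul_eq_zero_of_resH_eq_zero (n : ℕ) (A : Rep.{u} k G)
    (x : groupCohomology A n) (hx : (resH H A n).hom x = 0) : H.index • x = 0 := by
  have h1 := congrArg (fun f => f.hom x) (resH_cor H n A)
  simp only [ModuleCat.hom_comp, LinearMap.comp_apply, hx, map_zero] at h1
  rw [← h1.symm]
  rfl

end main

end

end Fermat.Agent.S55.H572
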