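import Fermat.Agent.S55.H572.ResCoind

/-!
# Dimension shifting

For `A : Rep R G` we construct short exact sequences of `G`-representations

* `upSC A   : 0 → A → coind₁ A → up A → 0`       (any group `G`),
* `downSC A : 0 → down A → coind₁ A → A → 0`     (`G` finite),

where `coind₁ A = Fun(G, A)` has vanishing (Tate) cohomology over **every** subgroup `H ≤ G`.
Hence for every subgroup `H` the connecting maps are isomorphisms:

* `groupCohomology`: `Hⁿ⁺¹(H, up A) ≅ Hⁿ⁺²(H, A)`, and `H⁰(H, up A) → H¹(H, A)` is epi;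
* Tate cohomology (`H` finite): `Ĥⁿ(H, up A) ≅ Ĥⁿ⁺¹(H, A)`, `Ĥⁿ(H, A) ≅ Ĥⁿ⁺¹(H, down A)`, all `n : ℤ`.
-/

set_option autoImplicit false

open CategoryTheory groupCohomology groupHomology Rep Limits

universe u

namespace Fermat.Agent.S55.H572

noncomputable section

section up

variable {R G : Type u} [CommRing R] [Group G]

/-- `coind₁ A = Fun(G, A)` with `G` acting by right translation. -/
abbrev coind₁ (A : Rep.{u} R G) : Rep.{u} R G :=
  coind (⊥ : Subgroup G).subtype (res (⊥ : Subgroup G).subtype A)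

/-- Underlying linear map of `coind₁ι`: `a ↦ (x ↦ ρ x a)`. -/
def coind₁ιLin (A : Rep.{u} R G) : A.V →ₗ[R] (coind₁ A).V where
  toFun a := mkCoind (res (⊥ : Subgroup G).subtype A) (fun x => A.ρ x a)
  map_add' a b := by
    apply Subtype.ext
    funext x
    exact map_add (A.ρ x) a b
  map_smul' r a := by
    apply Subtype.ext
    funext x
    exact map_smul (A.ρ x) r a

lemma coind₁ιLin_apply (A : Rep.{u} R G) (a : A.V) (x : G) :
    (coind₁ιLin A a).1 x = A.ρ x a := rfl

/-- The embedding `A ⟶ coind₁ A`, `a ↦ (x ↦ ρ x a)`. -/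
def coind₁ι (A : Rep.{u} R G) : A ⟶ coind₁ A :=
  Rep.ofHom (ρ := A.ρ) (σ := (coind₁ A).ρ) ⟨coind₁ιLin A, fun g => by
    apply LinearMap.ext
    intro a
    apply Subtype.ext
    funext x
    change A.ρ x (A.ρ g a) = A.ρ (x * g) a
    rw [map_mul]
    rfl⟩

lemma coind₁ι_hom_apply (A : Rep.{u} R G) (a : A.V) (x : G) :
    ((coind₁ι A).hom a).1 x = A.ρ x a := rfl

instance coind₁ι_mono (A : Rep.{u} R G) : Mono (coind₁ι A) := by
  rw [Rep.mono_iff_injective]
  intro a b h
  have h1 : ((coind₁ι A).hom a).1 1 = ((coind₁ι A).hom b).1 1 := by rw [h]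
  rw [coind₁ι_hom_apply, coind₁ι_hom_apply, map_one] at h1
  exact h1

/-- The dimension shift `up A = coind₁ A / A`. -/
def up (A : Rep.{u} R G) : Rep.{u} R G := cokernel (coind₁ι A)

/-- The projection `coind₁ A ⟶ up A`. -/
def upπ (A : Rep.{u} R G) : coind₁ A ⟶ up A := cokernel.π (coind₁ι A)

instance upπ_epi (A : Rep.{u} R G) : Epi (upπ A) :=
  coequalizer.π_epi

/-- The short complex `A ⟶ coind₁ A ⟶ up A`. -/
def upSC (A : Rep.{u} R G) : ShortComplex (Rep.{u} R G) :=
  ShortComplex.mk (coind₁ι A) (upπ A) (cokernel.condition _)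

lemma upSC_shortExact (A : Rep.{u} R G) : (upSC A).ShortExact where
  exact := ShortComplex.exact_of_g_is_cokernel _ (cokernelIsCokernel _)
  mono_f := coind₁ι_mono A
  epi_g := upπ_epi A

variable (H : Subgroup G)

/-- The restriction of `upSC A` to a subgroup. -/
abbrev upSCRes (A : Rep.{u} R G) : ShortComplex (Rep.{u} R H) :=
  (upSC A).map (resFunctor H.subtype)

lemma upSCRes_shortExact (A : Rep.{u} R G) : (upSCRes H A).ShortExact :=
  (Rep.shortExact_res H.subtype).2 (upSC_shortExact A)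

/-- `coind₁ A` has vanishing cohomology in positive degrees over every subgroup. -/
theorem isZero_groupCohomology_res_coind₁ (A : Rep.{u} R G) (n : ℕ) :
    IsZero (groupCohomology (res H.subtype (coind₁ A)) (n + 1)) :=
  isZero_groupCohomology_res_coind_bot H _ n

/-- `coind₁ A` has vanishing Tate cohomology in all degrees over every finite subgroup. -/
theorem isZero_tateCohomology_res_coind₁ [Fintype H] (A : Rep.{u} R G) (n : ℤ) :
    IsZero (tateCohomology (res H.subtype (coind₁ A)) n) :=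
  isZero_tateCohomology_res_coind_bot H _ n

/-- Dimension shifting: `δ : Hⁿ⁺¹(H, up A) → Hⁿ⁺²(H, A)` is an isomorphism. -/
theorem isIso_δ_up (A : Rep.{u} R G) (n : ℕ) :
    IsIso (groupCohomology.δ (upSCRes_shortExact H A) (n + 1) (n + 2) rfl) :=
  groupCohomology.isIso_δ_of_isZero (upSCRes_shortExact H A) (n + 1)
    (isZero_groupCohomology_res_coind₁ H A n) (isZero_groupCohomology_res_coind₁ H A (n + 1))

/-- Dimension shifting: `δ : H⁰(H, up A) → H¹(H, A)` is an epimorphism. -/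
theorem epi_δ_up_zero (A : Rep.{u} R G) :
    Epi (groupCohomology.δ (upSCRes_shortExact H A) 0 1 rfl) :=
  groupCohomology.epi_δ_of_isZero (upSCRes_shortExact H A) 0
    (isZero_groupCohomology_res_coind₁ H A 0)

/-- Dimension shifting isomorphism `Hⁿ⁺¹(H, up A) ≅ Hⁿ⁺²(H, A)`. -/
def upIso (A : Rep.{u} R G) (n : ℕ) :
    groupCohomology (res H.subtype (up A)) (n + 1) ≅
      groupCohomology (res H.subtype A) (n + 2) :=
  @asIso _ _ _ _ (groupCohomology.δ (upSCRes_shortExact H A) (n + 1) (n + 2) rfl)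
    (isIso_δ_up H A n)

/-- Dimension shifting in Tate cohomology: `δ : Ĥⁿ(H, up A) → Ĥⁿ⁺¹(H, A)` is an isomorphism. -/
theorem isIso_tate_δ_up [Fintype H] (A : Rep.{u} R G) (n : ℤ) :
    IsIso (TateCohomology.δ (upSCRes_shortExact H A) n) :=
  ShortComplex.SnakeInput.isIso_δ _ (isZero_tateCohomology_res_coind₁ H A n)
    (isZero_tateCohomology_res_coind₁ H A (n + 1))

/-- Dimension shifting isomorphism `Ĥⁿ(H, up A) ≅ Ĥⁿ⁺¹(H, A)`. -/
def tateUpIso [Fintype H] (A : Rep.{u} R G) (n : ℤ) :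
    tateCohomology (res H.subtype (up A)) n ≅ tateCohomology (res H.subtype A) (n + 1) :=
  @asIso _ _ _ _ (TateCohomology.δ (upSCRes_shortExact H A) n) (isIso_tate_δ_up H A n)

/-! ### Functoriality of `up` -/

/-- Functoriality of `coind₁`. -/
def coind₁Map {A B : Rep.{u} R G} (f : A ⟶ B) : coind₁ A ⟶ coind₁ B :=
  coindMap (⊥ : Subgroup G).subtype ((resFunctor (⊥ : Subgroup G).subtype).map f)

lemma coind₁Map_hom_apply {A B : Rep.{u} R G} (f : A ⟶ B) (F : (coind₁ A).V) (x : G) :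
    ((coind₁Map f).hom F).1 x = f.hom (F.1 x) := rfl

lemma coind₁ι_naturality {A B : Rep.{u} R G} (f : A ⟶ B) :
    coind₁ι A ≫ coind₁Map f = f ≫ coind₁ι B := by
  apply Rep.hom_ext
  apply Representation.IntertwiningMap.ext
  apply LinearMap.ext
  intro a
  apply Subtype.ext
  funext x
  change f.hom (A.ρ x a) = B.ρ x (f.hom a)
  exact Rep.hom_comm_apply f x a

/-- Functoriality of `up`. -/
def upMap {A B : Rep.{u} R G} (f : A ⟶ B) : up A ⟶ up B :=
  cokernel.map (coind₁ι A) (coind₁ι B) f (coind₁Map f) (coind₁ι_naturality f)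

lemma upπ_naturality {A B : Rep.{u} R G} (f : A ⟶ B) :
    upπ A ≫ upMap f = coind₁Map f ≫ upπ B := by
  exact cokernel.π_desc _ _ _

/-- The morphism of short complexes `upSC A ⟶ upSC B` induced by `f : A ⟶ B`. -/
def upSCMap {A B : Rep.{u} R G} (f : A ⟶ B) : upSC A ⟶ upSC B where
  τ₁ := f
  τ₂ := coind₁Map f
  τ₃ := upMap f
  comm₁₂ := (coind₁ι_naturality f).symm
  comm₂₃ := (upπ_naturality f).symm

end up

section down

variable {R G : Type u} [CommRing R] [Group G] [Fintype G]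

/-- Underlying linear map of `coind₁ε`: `f ↦ ∑ x, ρ x⁻¹ (f x)`. -/
def coind₁εLin (A : Rep.{u} R G) : (coind₁ A).V →ₗ[R] A.V where
  toFun f := ∑ x : G, A.ρ x⁻¹ (f.1 x)
  map_add' f g := by
    rw [← Finset.sum_add_distrib]
    refine Finset.sum_congr rfl fun x _ => ?_
    exact map_add (A.ρ x⁻¹) (f.1 x) (g.1 x)
  map_smul' r f := by
    rw [RingHom.id_apply, Finset.smul_sum]
    refine Finset.sum_congr rfl fun x _ => ?_
    exact map_smul (A.ρ x⁻¹) r (f.1 x)

lemma coind₁εLin_apply (A : Rep.{u} R G) (f : (coind₁ A).V) :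
    coind₁εLin A f = ∑ x : G, A.ρ x⁻¹ (f.1 x) := rfl

/-- The projection `coind₁ A ⟶ A`, `f ↦ ∑ x, ρ x⁻¹ (f x)` (for finite `G`). -/
def coind₁ε (A : Rep.{u} R G) : coind₁ A ⟶ A :=
  Rep.ofHom (ρ := (coind₁ A).ρ) (σ := A.ρ) ⟨coind₁εLin A, fun g => by
    apply LinearMap.ext
    intro f
    change ∑ x : G, A.ρ x⁻¹ (f.1 (x * g)) = A.ρ g (∑ x : G, A.ρ x⁻¹ (f.1 x))
    rw [map_sum]
    refine Fintype.sum_equiv (Equiv.mulRight g) _ _ fun x => ?_
    change A.ρ x⁻¹ (f.1 (x * g)) = A.ρ g (A.ρ (x * g)⁻¹ (f.1 (x * g)))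
    rw [← Module.End.mul_apply, ← map_mul, mul_inv_rev, mul_inv_cancel_left]⟩

lemma coind₁ε_hom_apply (A : Rep.{u} R G) (f : (coind₁ A).V) :
    (coind₁ε A).hom f = ∑ x : G, A.ρ x⁻¹ (f.1 x) := rfl

instance coind₁ε_epi (A : Rep.{u} R G) : Epi (coind₁ε A) := by
  classical
  rw [Rep.epi_iff_surjective]
  intro a
  refine ⟨mkCoind (res (⊥ : Subgroup G).subtype A) (fun x => if x = 1 then a else 0), ?_⟩
  rw [coind₁ε_hom_apply]
  rw [Finset.sum_eq_single (1 : G)]
  · simp
  · intro x _ hx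
    simp [hx]
  · intro h; exact absurd (Finset.mem_univ _) h

/-- The dimension shift `down A = ker (coind₁ A ⟶ A)`. -/
def down (A : Rep.{u} R G) : Rep.{u} R G := kernel (coind₁ε A)

/-- The inclusion `down A ⟶ coind₁ A`. -/
def downι (A : Rep.{u} R G) : down A ⟶ coind₁ A := kernel.ι (coind₁ε A)

instance downι_mono (A : Rep.{u} R G) : Mono (downι A) :=
  equalizer.ι_mono

/-- The short complex `down A ⟶ coind₁ A ⟶ A`. -/
def downSC (A : Rep.{u} R G) : ShortComplex (Rep.{u} R G) :=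
  ShortComplex.mk (downι A) (coind₁ε A) (kernel.condition _)

lemma downSC_shortExact (A : Rep.{u} R G) : (downSC A).ShortExact where
  exact := ShortComplex.exact_of_f_is_kernel _ (kernelIsKernel _)
  mono_f := downι_mono A
  epi_g := coind₁ε_epi A

variable (H : Subgroup G)

/-- The restriction of `downSC A` to a subgroup. -/
abbrev downSCRes (A : Rep.{u} R G) : ShortComplex (Rep.{u} R H) :=
  (downSC A).map (resFunctor H.subtype)

lemma downSCRes_shortExact (A : Rep.{u} R G) : (downSCRes H A).ShortExact :=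
  (Rep.shortExact_res H.subtype).2 (downSC_shortExact A)

/-- Dimension shifting: `δ : Hⁿ⁺¹(H, A) → Hⁿ⁺²(H, down A)` is an isomorphism. -/
theorem isIso_δ_down (A : Rep.{u} R G) (n : ℕ) :
    IsIso (groupCohomology.δ (downSCRes_shortExact H A) (n + 1) (n + 2) rfl) :=
  groupCohomology.isIso_δ_of_isZero (downSCRes_shortExact H A) (n + 1)
    (isZero_groupCohomology_res_coind₁ H A n) (isZero_groupCohomology_res_coind₁ H A (n + 1))

/-- Dimension shifting isomorphism `Hⁿ⁺¹(H, A) ≅ Hⁿ⁺²(H, down A)`. -/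
def downIso (A : Rep.{u} R G) (n : ℕ) :
    groupCohomology (res H.subtype A) (n + 1) ≅
      groupCohomology (res H.subtype (down A)) (n + 2) :=
  @asIso _ _ _ _ (groupCohomology.δ (downSCRes_shortExact H A) (n + 1) (n + 2) rfl)
    (isIso_δ_down H A n)

/-- Dimension shifting in Tate cohomology: `δ : Ĥⁿ(H, A) → Ĥⁿ⁺¹(H, down A)` is an isomorphism. -/
theorem isIso_tate_δ_down [Fintype H] (A : Rep.{u} R G) (n : ℤ) :
    IsIso (TateCohomology.δ (downSCRes_shortExact H A) n) :=
  ShortComplex.SnakeInput.isIso_δ _ (isZero_tateCohomology_res_coind₁ H A n)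
    (isZero_tateCohomology_res_coind₁ H A (n + 1))

/-- Dimension shifting isomorphism `Ĥⁿ(H, A) ≅ Ĥⁿ⁺¹(H, down A)`. -/
def tateDownIso [Fintype H] (A : Rep.{u} R G) (n : ℤ) :
    tateCohomology (res H.subtype A) n ≅ tateCohomology (res H.subtype (down A)) (n + 1) :=
  @asIso _ _ _ _ (TateCohomology.δ (downSCRes_shortExact H A) n) (isIso_tate_δ_down H A n)

end down

end

end Fermat.Agent.S55.H572
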