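import Fermat.Agent.S55.H572.CoindTriv

/-!
# Restriction of a module coinduced from the trivial subgroup is again coinduced

For any group `G`, subgroup `H ≤ G` and `A₀ : Rep R (⊥ : Subgroup G)`:
`res H (coind_1^G A₀) ≅ coind_1^H (Fun(G ⧸ H, A₀))` (`resCoindBotIso`).

Consequences (`H` finite for Tate cohomology, arbitrary for group cohomology):
the restriction to **every** subgroup of a module coinduced from the trivial subgroup has
vanishing (Tate) cohomology.
-/

set_option autoImplicit false

open CategoryTheory groupCohomology groupHomology Rep Limits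

universe u

namespace Fermat.Agent.S55.H572

noncomputable section

variable {R G : Type u} [CommRing R] [Group G] (H : Subgroup G)

/-- The `H`-component of `x : G` with respect to the chosen representatives of `G ⧸ H`:
`x = (x H).out * hPart H x`. -/
def hPart (x : G) : H :=
  ⟨(QuotientGroup.mk x : G ⧸ H).out⁻¹ * x,
    QuotientGroup.leftRel_apply.mp (Quotient.exact' (QuotientGroup.out_eq' _))⟩

lemma out_mul_hPart (x : G) : (QuotientGroup.mk x : G ⧸ H).out * (hPart H x : G) = x := by
  simp [hPart]

lemma mk_out_mul (q : G ⧸ H) (h : H) : (QuotientGroup.mk (q.out * (h : G)) : G ⧸ H) = q := by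
  rw [QuotientGroup.mk_mul_of_mem _ h.2, QuotientGroup.out_eq']

lemma hPart_out_mul (q : G ⧸ H) (h : H) : hPart H (q.out * (h : G)) = h := by
  apply Subtype.ext
  simp only [hPart]
  rw [mk_out_mul]
  simp

/-- Coefficients of the restricted coinduced module: functions `G ⧸ H → A₀`. -/
abbrev coeffRes (A₀ : Rep.{u} R (⊥ : Subgroup G)) : Rep.{u} R (⊥ : Subgroup H) :=
  Rep.trivial R (⊥ : Subgroup H) ((G ⧸ H) → A₀.V)

/-- The underlying linear equivalence of `resCoindBotIso`. -/
def resCoindBotLinearEquiv (A₀ : Rep.{u} R (⊥ : Subgroup G)) :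
    (coind (⊥ : Subgroup G).subtype A₀).V ≃ₗ[R]
      (coind (⊥ : Subgroup H).subtype (coeffRes H A₀)).V where
  toFun f := mkCoind (coeffRes H A₀) (fun h q => f.1 (q.out * (h : G)))
  map_add' f g := rfl
  map_smul' r f := rfl
  invFun F := mkCoind A₀ (fun x => F.1 (hPart H x) (QuotientGroup.mk x))
  left_inv f := by
    apply Subtype.ext
    funext x
    change f.1 ((QuotientGroup.mk x : G ⧸ H).out * (hPart H x : G)) = f.1 x
    rw [out_mul_hPart]
  right_inv F := by
    apply Subtype.ext
    funext h q
    change F.1 (hPart H (q.out * (h : G))) (QuotientGroup.mk (q.out * (h : G))) = F.1 h q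
    rw [hPart_out_mul, mk_out_mul]

/-- `res H (coind_1^G A₀) ≅ coind_1^H (Fun(G ⧸ H, A₀))`. -/
def resCoindBotIso (A₀ : Rep.{u} R (⊥ : Subgroup G)) :
    res H.subtype (coind (⊥ : Subgroup G).subtype A₀) ≅
      coind (⊥ : Subgroup H).subtype (coeffRes H A₀) :=
  Rep.mkIso (Representation.Equiv.mk (resCoindBotLinearEquiv H A₀) (fun h' => by
    apply LinearMap.ext
    intro f
    apply Subtype.ext
    funext h q
    change f.1 (q.out * (h : G) * (h' : G)) = f.1 (q.out * ((h * h' : H) : G))
    rw [Subgroup.coe_mul, mul_assoc]))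

/-- Restriction to any subgroup of a module coinduced from the trivial subgroup has vanishing
group cohomology in positive degrees. -/
theorem isZero_groupCohomology_res_coind_bot (A₀ : Rep.{u} R (⊥ : Subgroup G)) (n : ℕ) :
    IsZero (groupCohomology (res H.subtype (coind (⊥ : Subgroup G).subtype A₀)) (n + 1)) :=
  IsZero.of_iso (IsZero.of_iso (isZero_groupCohomology_succ_of_subsingleton (coeffRes H A₀) n)
      (groupCohomology.coindIso (coeffRes H A₀) (n + 1)))
    ((groupCohomology.functor R H (n + 1)).mapIso (resCoindBotIso H A₀))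

/-- Restriction to any finite subgroup of a module coinduced from the trivial subgroup has
vanishing Tate cohomology in all degrees. -/
theorem isZero_tateCohomology_res_coind_bot [Fintype H] (A₀ : Rep.{u} R (⊥ : Subgroup G))
    (n : ℤ) :
    IsZero (tateCohomology (res H.subtype (coind (⊥ : Subgroup G).subtype A₀)) n) :=
  IsZero.of_iso (isZero_tateCohomology_coind_bot (coeffRes H A₀) n)
    ((tateCohomologyFunctor n).mapIso (resCoindBotIso H A₀))

end

end Fermat.Agent.S55.H572
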