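import Fermat.Agent.S55.H572.TateLow

/-!
# Tate cohomology of modules coinduced from the trivial subgroup vanishes

For a finite group `G` and `A₀ : Rep R (⊥ : Subgroup G)`, the coinduced module
`coind (⊥ : Subgroup G).subtype A₀` (functions `G → A₀`, right translation action) has
vanishing Tate cohomology in every degree.
-/

set_option autoImplicit false

open CategoryTheory groupCohomology groupHomology Rep Limits

universe u

namespace Fermat.Agent.S55.H572

noncomputable section

section general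

variable {R G : Type u} [CommRing R] [Group G]

/-- Every function lies in the coinduction from the trivial subgroup. -/
lemma mem_coindV_bot (A₀ : Rep.{u} R (⊥ : Subgroup G)) (f : G → A₀) :
    f ∈ Representation.coindV (⊥ : Subgroup G).subtype A₀.ρ := by
  intro g h
  have hg : g = 1 := Subsingleton.elim _ _
  subst hg
  simp

/-- Build an element of `coind ⊥ A₀` from an arbitrary function. -/
def mkCoind (A₀ : Rep.{u} R (⊥ : Subgroup G)) (f : G → A₀) :
    coind (⊥ : Subgroup G).subtype A₀ :=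
  ⟨f, mem_coindV_bot A₀ f⟩

@[simp]
lemma mkCoind_coe (A₀ : Rep.{u} R (⊥ : Subgroup G)) (f : G → A₀) (x : G) :
    (mkCoind A₀ f).1 x = f x := rfl

lemma coind_ρ_coe (A₀ : Rep.{u} R (⊥ : Subgroup G)) (g : G)
    (f : coind (⊥ : Subgroup G).subtype A₀) (x : G) :
    ((coind (⊥ : Subgroup G).subtype A₀).ρ g f).1 x = f.1 (x * g) := rfl

lemma d₁₀_hom_single (M : Rep.{u} R G) (g : G) (a : M) :
    (d₁₀ M).hom (Finsupp.single g a) = M.ρ g⁻¹ a - a := d₁₀_single M g a

end general

variable {R G : Type u} [CommRing R] [Group G] [Fintype G]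

lemma coind_norm_coe (A₀ : Rep.{u} R (⊥ : Subgroup G))
    (f : coind (⊥ : Subgroup G).subtype A₀) (x : G) :
    ((coind (⊥ : Subgroup G).subtype A₀).ρ.norm f).1 x = ∑ g : G, f.1 (x * g) := by
  simp only [Representation.norm, LinearMap.sum_apply]
  rw [Submodule.coe_sum, Finset.sum_apply]
  rfl

theorem isZero_tateCohomology_coind_bot_zero (A₀ : Rep.{u} R (⊥ : Subgroup G)) :
    IsZero (tateCohomology (coind (⊥ : Subgroup G).subtype A₀) 0) := by
  classical
  rw [isZero_tateCohomology_zero_iff]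
  intro x hx
  refine ⟨mkCoind A₀ (fun t => if t = 1 then x.1 1 else 0), ?_⟩
  apply Subtype.ext
  funext t
  rw [coind_norm_coe]
  simp only [mkCoind_coe]
  have hconst : x.1 t = x.1 1 := by
    have h1 : ((coind (⊥ : Subgroup G).subtype A₀).ρ t x).1 1 = x.1 1 := by rw [hx t]
    rw [coind_ρ_coe, one_mul] at h1
    exact h1
  rw [hconst]
  have h2 : ∀ g : G, (t * g = 1) ↔ g = t⁻¹ := fun g => by
    rw [mul_eq_one_iff_eq_inv']
  simp only [h2]
  simp

theorem isZero_tateCohomology_coind_bot_neg_one (A₀ : Rep.{u} R (⊥ : Subgroup G)) :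
    IsZero (tateCohomology (coind (⊥ : Subgroup G).subtype A₀) (-1)) := by
  classical
  rw [isZero_tateCohomology_neg_one_iff]
  intro x hx
  have hsum : ∑ g : G, x.1 g = 0 := by
    have h1 := coind_norm_coe A₀ x 1
    rw [hx] at h1
    simpa using h1.symm
  refine ⟨∑ g : G, Finsupp.single g (mkCoind A₀ (fun t => if t = 1 then x.1 g else 0)), ?_⟩
  rw [map_sum]
  rw [Finset.sum_congr rfl (fun g _ => d₁₀_hom_single (coind (⊥ : Subgroup G).subtype A₀) g _)]
  apply Subtype.ext
  funext t
  rw [Submodule.coe_sum, Finset.sum_apply]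
  have key : ∀ g : G,
      ((coind (⊥ : Subgroup G).subtype A₀).ρ g⁻¹
          (mkCoind A₀ (fun s => if s = 1 then x.1 g else 0)) -
        mkCoind A₀ (fun s => if s = 1 then x.1 g else 0)).1 t =
      (if t = g then x.1 g else 0) - (if t = 1 then x.1 g else 0) := by
    intro g
    have h1 : ((coind (⊥ : Subgroup G).subtype A₀).ρ g⁻¹
          (mkCoind A₀ (fun s => if s = 1 then x.1 g else 0))).1 t =
        (if t * g⁻¹ = 1 then x.1 g else 0) := rfl
    have h2 : (t * g⁻¹ = 1) ↔ t = g := by
      rw [mul_inv_eq_one]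
    rw [Submodule.coe_sub, Pi.sub_apply, h1, mkCoind_coe]
    simp only [h2]
  rw [Finset.sum_congr rfl (fun g _ => key g), Finset.sum_sub_distrib]
  have h2 : ∑ g : G, (if t = 1 then x.1 g else 0) = 0 := by
    by_cases ht : t = 1
    · simp [ht, hsum]
    · simp [ht]
  rw [h2, sub_zero]
  simp

theorem isZero_tateCohomology_coind_bot_pos (A₀ : Rep.{u} R (⊥ : Subgroup G)) (n : ℕ) :
    IsZero (tateCohomology (coind (⊥ : Subgroup G).subtype A₀) ((n + 1 : ℕ) : ℤ)) :=
  IsZero.of_iso (isZero_groupCohomology_succ_of_subsingleton A₀ n)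
    ((TateCohomology.isoGroupCohomology (n + 1)).app (coind (⊥ : Subgroup G).subtype A₀) ≪≫
      groupCohomology.coindIso A₀ (n + 1))

theorem isZero_tateCohomology_coind_bot_neg (A₀ : Rep.{u} R (⊥ : Subgroup G)) (n : ℕ) :
    IsZero (tateCohomology (coind (⊥ : Subgroup G).subtype A₀) (-((n + 1 : ℕ) + 1 : ℤ))) := by
  classical
  exact IsZero.of_iso (isZero_groupHomology_succ_of_subsingleton A₀ n)
    ((TateCohomology.isoGroupHomology (-((n + 1 : ℕ) + 1 : ℤ)) (n + 1) rfl).app _ ≪≫
      (groupHomology.functor R G (n + 1)).mapIso (Rep.indCoindIso A₀).symm ≪≫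
      groupHomology.indIso _ A₀ (n + 1))

/-- **Tate cohomology of a module coinduced from the trivial subgroup vanishes in all degrees.** -/
theorem isZero_tateCohomology_coind_bot (A₀ : Rep.{u} R (⊥ : Subgroup G)) (n : ℤ) :
    IsZero (tateCohomology (coind (⊥ : Subgroup G).subtype A₀) n) := by
  rcases lt_trichotomy n (-1) with h | h | h
  · obtain ⟨m, rfl⟩ : ∃ m : ℕ, n = -((m + 1 : ℕ) + 1 : ℤ) := ⟨(-n - 2).toNat, by omega⟩
    exact isZero_tateCohomology_coind_bot_neg A₀ m
  · subst h; exact isZero_tateCohomology_coind_bot_neg_one A₀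
  · rcases eq_or_lt_of_le (show (0 : ℤ) ≤ n by omega) with h0 | h0
    · subst h0; exact isZero_tateCohomology_coind_bot_zero A₀
    · obtain ⟨m, rfl⟩ : ∃ m : ℕ, n = ((m + 1 : ℕ) : ℤ) := ⟨(n - 1).toNat, by omega⟩
      exact isZero_tateCohomology_coind_bot_pos A₀ m

end

end Fermat.Agent.S55.H572
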