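import Mathlib

/-!
# Tate cohomology in degrees `0` and `-1`: concrete exactness criteria

For a finite group `G` and `M : Rep R G` (Mathlib's `tateComplex`):

* `exactAt_zero_iff`    : `Ĥ⁰(G, M) = 0` iff every invariant is a norm;
* `exactAt_neg_one_iff` : `Ĥ⁻¹(G, M) = 0` iff every element of norm `0` lies in the image of
  `d₁₀` (i.e. in `I_G M`).
-/

set_option autoImplicit false

open CategoryTheory groupCohomology groupHomology Rep Limits

universe u

namespace Fermat.Agent.S55.H572

variable {R G : Type u} [CommRing R] [Group G] [Fintype G]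

noncomputable section

/-- The concrete short complex `M --N--> M --d₀₁--> (G → M)`. -/
abbrev scZero (M : Rep.{u} R G) : ShortComplex (ModuleCat.{u} R) :=
  ShortComplex.mk M.norm.toModuleCatHom (d₀₁ M) (Rep.norm_comp_d_eq_zero M)

/-- The concrete short complex `(G →₀ M) --d₁₀--> M --N--> M`. -/
abbrev scNegOne (M : Rep.{u} R G) : ShortComplex (ModuleCat.{u} R) :=
  ShortComplex.mk (d₁₀ M) M.norm.toModuleCatHom (Rep.comp_eq_zero M)

/-- The Tate complex around degree `0` is the concrete complex `scZero`. -/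
def scZeroIso (M : Rep.{u} R G) : (tateComplex M).sc' (-1) 0 1 ≅ scZero M :=
  ShortComplex.isoMk (chainsIso₀ M) (cochainsIso₀ M) (cochainsIso₁ M)
    (by
      change (chainsIso₀ M).hom ≫ M.norm.toModuleCatHom = M.tateNorm ≫ (cochainsIso₀ M).hom
      simp [Rep.tateNorm])
    (by
      change (cochainsIso₀ M).hom ≫ d₀₁ M = (inhomogeneousCochains M).d 0 1 ≫ (cochainsIso₁ M).hom
      exact comp_d₀₁_eq M)

/-- The Tate complex around degree `-1` is the concrete complex `scNegOne`. -/
def scNegOneIso (M : Rep.{u} R G) : (tateComplex M).sc' (-2) (-1) 0 ≅ scNegOne M :=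
  ShortComplex.isoMk (chainsIso₁ M) (chainsIso₀ M) (cochainsIso₀ M)
    (by
      change (chainsIso₁ M).hom ≫ d₁₀ M = (inhomogeneousChains M).d 1 0 ≫ (chainsIso₀ M).hom
      exact comp_d₁₀_eq M)
    (by
      change (chainsIso₀ M).hom ≫ M.norm.toModuleCatHom = M.tateNorm ≫ (cochainsIso₀ M).hom
      simp [Rep.tateNorm])

/-- `Ĥ⁰(G, M) = 0` iff every invariant element is a norm. -/
theorem exactAt_zero_iff (M : Rep.{u} R G) :
    (tateComplex M).ExactAt 0 ↔
      ∀ x : M, (∀ g : G, M.ρ g x = x) → ∃ y : M, M.ρ.norm y = x := by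
  rw [HomologicalComplex.exactAt_iff' _ (-1) 0 1 (by simp) (by simp),
    ShortComplex.exact_iff_of_iso (scZeroIso M), ShortComplex.moduleCat_exact_iff]
  constructor
  · intro h x hx
    refine h x ?_
    change (d₀₁ M).hom x = 0
    funext g
    rw [d₀₁_hom_apply, hx g, sub_self]
    rfl
  · intro h x hx
    refine h x fun g => ?_
    have hx' : (d₀₁ M).hom x = 0 := hx
    have := congrFun hx' g
    rw [d₀₁_hom_apply] at this
    exact sub_eq_zero.mp this

/-- `Ĥ⁻¹(G, M) = 0` iff every element of norm zero is in the image of `d₁₀`. -/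
theorem exactAt_neg_one_iff (M : Rep.{u} R G) :
    (tateComplex M).ExactAt (-1) ↔
      ∀ x : M, M.ρ.norm x = 0 → ∃ z : G →₀ M, (d₁₀ M).hom z = x := by
  rw [HomologicalComplex.exactAt_iff' _ (-2) (-1) 0 (by simp) (by simp),
    ShortComplex.exact_iff_of_iso (scNegOneIso M), ShortComplex.moduleCat_exact_iff]
  rfl

theorem isZero_tateCohomology_zero_iff (M : Rep.{u} R G) :
    IsZero (tateCohomology M 0) ↔
      ∀ x : M, (∀ g : G, M.ρ g x = x) → ∃ y : M, M.ρ.norm y = x := by
  rw [← exactAt_zero_iff, HomologicalComplex.exactAt_iff_isZero_homology]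
  rfl

theorem isZero_tateCohomology_neg_one_iff (M : Rep.{u} R G) :
    IsZero (tateCohomology M (-1)) ↔
      ∀ x : M, M.ρ.norm x = 0 → ∃ z : G →₀ M, (d₁₀ M).hom z = x := by
  rw [← exactAt_neg_one_iff, HomologicalComplex.exactAt_iff_isZero_homology]
  rfl

end

end Fermat.Agent.S55.H572
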